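import Fermat.Prelude.Def_HeckeGalois_EichlerShimura

/-!
# S29 / piece GALJ (helper451): from `SpecializationExists` to the relations on `J[p^∞]`

The conclusion `SpecializationExists` of the frozen Eichler–Shimura statement implies
`UnramifiedOutside` and `FrobeniusQuadratic` (Prelude shapes), for any Hecke–Galois module `J`.
-/

set_option autoImplicit false

noncomputable section

namespace Fermat.Agent.S29.H451

open ModularCurve

variable {K L : Type*} [Field K] [Field L] [Algebra K L]
variable (N p : ℕ) (J : Type*) [AddCommGroup J] [Module HeckeAlg J]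
  [DistribMulAction (L ≃ₐ[K] L) J] [SMulCommClass (L ≃ₐ[K] L) HeckeAlg J]

omit [Module HeckeAlg J] [SMulCommClass (L ≃ₐ[K] L) HeckeAlg J] in
theorem galois_smul_nsmul (σ : L ≃ₐ[K] L) (n : ℕ) (x : J) : σ • (n • x) = n • (σ • x) :=
  map_nsmul (DistribSMul.toAddMonoidHom J σ) n x

theorem unramifiedOutside_of_specializationExists
    (h : SpecializationExists (K := K) (L := L) N p J) :
    UnramifiedOutside (K := K) (L := L) N p J := by
  intro ℓ hℓ hℓNp A hA σ hσ x ⟨n, hn⟩
  obtain ⟨J', _, _, sp, F, hsp, -⟩ := h ℓ hℓ hℓNp A hA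
  have h1 : sp (σ • x - x) = 0 := by
    rw [map_sub, hsp.inertia_comm σ hσ x, sub_self]
  have h2 : p ^ n • (σ • x - x) = 0 := by
    rw [smul_sub, ← galois_smul_nsmul J, hn, smul_zero, sub_self]
  exact sub_eq_zero.mp (hsp.injective_torsion _ ⟨n, h2⟩ h1)

theorem frobeniusQuadratic_of_specializationExists
    (h : SpecializationExists (K := K) (L := L) N p J) :
    FrobeniusQuadratic (K := K) (L := L) N p J := by
  intro ℓ hℓ hℓNp A hA σ hσ x ⟨n, hn⟩
  obtain ⟨J', _, _, sp, F, hsp, hF⟩ := h ℓ hℓ hℓNp A hA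
  refine hsp.injective_torsion _ ⟨n, ?_⟩ ?_
  · rw [smul_add, smul_sub, ← galois_smul_nsmul J, ← galois_smul_nsmul J, hn,
      smul_comm (p ^ n) (heckeGen ⟨ℓ, hℓ⟩) (σ • x), ← galois_smul_nsmul J, hn,
      smul_comm (p ^ n) ℓ x, hn]
    simp
  · rw [map_add, map_sub, hsp.frobenius_comm σ hσ, hsp.frobenius_comm σ hσ, hsp.hecke_comm,
      hsp.frobenius_comm σ hσ, map_nsmul]
    exact hF (sp x)

/-- Both relations at once, in the shape consumed downstream: on the `p`-power torsion of `J`
inertia at `ℓ ∤ Np` acts trivially and every Frobenius `σ` at `ℓ ∤ Np` satisfies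
`σ² - T_ℓ σ + ℓ = 0`. -/
theorem relations_of_specializationExists
    (h : SpecializationExists (K := K) (L := L) N p J) :
    UnramifiedOutside (K := K) (L := L) N p J ∧ FrobeniusQuadratic (K := K) (L := L) N p J :=
  ⟨unramifiedOutside_of_specializationExists N p J h,
    frobeniusQuadratic_of_specializationExists N p J h⟩

end Fermat.Agent.S29.H451
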