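import Fermat.Prelude.Def_ModularCurve_ArithmeticGalois
import Mathlib.FieldTheory.IntermediateField.Adjoin.Basic
import Mathlib.RingTheory.Adjoin.Field

/-!
# S29 / piece GALJ (helper451): finite level of the Galois action on `JZero N`

Every element of the function field `laurentBaseChange L F₀` (`L` algebraic over `ℚ`) is fixed by
`Gal(L/E)` for some finite `E/ℚ`; if the function field has principal divisors, the same holds
for every place, every divisor and every class in `Pic0`.  In particular every element of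
`JZero N` is fixed by an open subgroup of `Gal(ℚ̄/ℚ)`.
-/

set_option autoImplicit false

noncomputable section

namespace Fermat.Agent.S29.H451

open AlgebraicCurve ModularCurve IntermediateField
open scoped Pointwise

section Elements

variable {L : Type*} [Field L] [Algebra ℚ L] [Algebra.IsAlgebraic ℚ L]
variable (F₀ : IntermediateField ℚ (LaurentSeries ℚ))

/-- Every Laurent series in the base-changed function field has its coefficients "defined over
a finite extension": it is fixed by all `σ` fixing a finite-dimensional subfield. -/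
theorem exists_finiteDimensional_coeffMap_eq {x : LaurentSeries L}
    (hx : x ∈ laurentBaseChange L F₀) :
    ∃ E : IntermediateField ℚ L, FiniteDimensional ℚ E ∧
      ∀ σ : L ≃ₐ[ℚ] L, (∀ a ∈ E, σ a = a) → coeffMap (σ : L →+* L) x = x := by
  rw [mem_laurentBaseChange_iff] at hx
  induction hx using Subfield.closure_induction with
  | mem y hy =>
      rcases hy with ⟨a, rfl⟩ | ⟨z, hz, rfl⟩
      · refine ⟨ℚ⟮a⟯, IntermediateField.adjoin.finiteDimensional
          (Algebra.IsIntegral.isIntegral a), fun σ hσ => ?_⟩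
        rw [coeffMap_algebraMap]
        exact congrArg _ (hσ a (IntermediateField.mem_adjoin_simple_self ℚ a))
      · exact ⟨⊥, inferInstance, fun σ _ => coeffMap_coeffEmb σ z⟩
  | one => exact ⟨⊥, inferInstance, fun σ _ => map_one _⟩
  | add x y _ _ hx hy =>
      obtain ⟨E₁, h₁, hE₁⟩ := hx
      obtain ⟨E₂, h₂, hE₂⟩ := hy
      refine ⟨E₁ ⊔ E₂, inferInstance, fun σ hσ => ?_⟩
      rw [map_add, hE₁ σ fun a ha => hσ a ((le_sup_left : E₁ ≤ E₁ ⊔ E₂) ha),
        hE₂ σ fun a ha => hσ a ((le_sup_right : E₂ ≤ E₁ ⊔ E₂) ha)]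
  | neg x _ hx =>
      obtain ⟨E₁, h₁, hE₁⟩ := hx
      exact ⟨E₁, h₁, fun σ hσ => by rw [map_neg, hE₁ σ hσ]⟩
  | inv x _ hx =>
      obtain ⟨E₁, h₁, hE₁⟩ := hx
      exact ⟨E₁, h₁, fun σ hσ => by rw [map_inv₀, hE₁ σ hσ]⟩
  | mul x y _ _ hx hy =>
      obtain ⟨E₁, h₁, hE₁⟩ := hx
      obtain ⟨E₂, h₂, hE₂⟩ := hy
      refine ⟨E₁ ⊔ E₂, inferInstance, fun σ hσ => ?_⟩
      rw [map_mul, hE₁ σ fun a ha => hσ a ((le_sup_left : E₁ ≤ E₁ ⊔ E₂) ha),
        hE₂ σ fun a ha => hσ a ((le_sup_right : E₂ ≤ E₁ ⊔ E₂) ha)]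

/-- Every element of the base-changed function field is fixed by `Gal(L/E)`, `E/ℚ` finite. -/
theorem exists_finiteDimensional_smul_eq (x : laurentBaseChange L F₀) :
    ∃ E : IntermediateField ℚ L, FiniteDimensional ℚ E ∧
      ∀ σ : L ≃ₐ[ℚ] L, (∀ a ∈ E, σ a = a) → arithmeticGalois F₀ σ • x = x := by
  obtain ⟨E, hE, h⟩ := exists_finiteDimensional_coeffMap_eq F₀ x.2
  exact ⟨E, hE, fun σ hσ => Subtype.ext (h σ hσ)⟩

end Elements

section PlaceLemmas

variable {K F : Type*} [Field K] [Field F] [Algebra K F]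

theorem place_ord_nonneg_of_mem (v : Place K F) {f : F} (hf : f ∈ v.toValuationSubring) :
    0 ≤ v.ord f := by
  rcases eq_or_ne f 0 with rfl | hf0
  · simp
  obtain ⟨π, hπ⟩ := IsDiscreteValuationRing.exists_irreducible v.toValuationSubring
  obtain ⟨n, u, hu⟩ :=
    IsDiscreteValuationRing.eq_unit_mul_pow_irreducible
      (x := (⟨f, hf⟩ : v.toValuationSubring)) (by simpa [Subtype.ext_iff] using hf0) hπ
  have hcoe : f = ((u : v.toValuationSubring) : F) * ((π : F) ^ (n : ℤ)) := by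
    have h := congrArg (Subtype.val) hu
    push_cast at h
    rw [zpow_natCast]
    exact h
  rw [hcoe, v.ord_unit_smul_zpow u hπ (n : ℤ)]
  exact Int.natCast_nonneg n

theorem place_mem_of_ord_nonneg (v : Place K F) {f : F} (hf : f ≠ 0) (h : 0 ≤ v.ord f) :
    f ∈ v.toValuationSubring := by
  obtain ⟨π, hπ⟩ := IsDiscreteValuationRing.exists_irreducible v.toValuationSubring
  obtain ⟨u, hu⟩ := v.exists_unit_mul_zpow hf hπ
  rw [hu, show v.ord f = (((v.ord f).toNat : ℕ) : ℤ) from (Int.toNat_of_nonneg h).symm,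
    zpow_natCast]
  exact mul_mem (u : v.toValuationSubring).2 (pow_mem (π : v.toValuationSubring).2 _)

/-- Two distinct places are separated by an element: the valuation ring of a place is a maximal
proper subring. -/
theorem exists_mem_notMem_of_ne {v w : Place K F} (h : v ≠ w) :
    ∃ x : F, x ∈ v.toValuationSubring ∧ x ∉ w.toValuationSubring := by
  by_contra hcon
  replace hcon : ∀ x : F, x ∈ v.toValuationSubring → x ∈ w.toValuationSubring := by
    intro x hx
    by_contra hxw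
    exact hcon ⟨x, hx, hxw⟩
  apply h
  apply Place.ext
  refine le_antisymm (fun x hx => hcon x hx) fun x hx => ?_
  by_contra hxv
  apply w.ne_top'
  have hx0 : x ≠ 0 := fun h0 => hxv (h0 ▸ zero_mem _)
  have hordx : v.ord x < 0 := by
    by_contra hge
    exact hxv (place_mem_of_ord_nonneg v hx0 (not_lt.mp hge))
  refine SetLike.ext fun y => ⟨fun _ => ValuationSubring.mem_top y, fun _ => ?_⟩
  rcases eq_or_ne y 0 with rfl | hy0
  · exact zero_mem _
  set n : ℕ := (v.ord y).natAbs with hn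
  have hxn : x ^ n ≠ 0 := pow_ne_zero _ hx0
  have hord : 0 ≤ v.ord (y * (x ^ n)⁻¹) := by
    rw [v.ord_mul hy0 (inv_ne_zero hxn), v.ord_inv, ← zpow_natCast, v.ord_zpow]
    have h1 : (n : ℤ) * v.ord x ≤ (n : ℤ) * (-1) :=
      mul_le_mul_of_nonneg_left (by omega) (Int.natCast_nonneg n)
    have h2 : -(n : ℤ) ≤ v.ord y := by
      rw [hn]
      omega
    omega
  have hmem : y * (x ^ n)⁻¹ ∈ w.toValuationSubring :=
    hcon _ (place_mem_of_ord_nonneg v (mul_ne_zero hy0 (inv_ne_zero hxn)) hord)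
  have : y = y * (x ^ n)⁻¹ * x ^ n := by
    rw [mul_assoc, inv_mul_cancel₀ hxn, mul_one]
  rw [this]
  exact mul_mem hmem (pow_mem hx n)

end PlaceLemmas

section Stabilizer

variable {L : Type*} [Field L] [Algebra ℚ L] [Algebra.IsAlgebraic ℚ L]
variable (F₀ : IntermediateField ℚ (LaurentSeries ℚ))
variable [HasPrincipalDivisors L (laurentBaseChange L F₀)]

/-- **Places have open stabiliser.** -/
theorem exists_finiteDimensional_smul_place_eq (v : Place L (laurentBaseChange L F₀)) :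
    ∃ E : IntermediateField ℚ L, FiniteDimensional ℚ E ∧
      ∀ σ : L ≃ₐ[ℚ] L, (∀ a ∈ E, σ a = a) → arithmeticGalois F₀ σ • v = v := by
  classical
  obtain ⟨π, hπ⟩ := IsDiscreteValuationRing.exists_irreducible v.toValuationSubring
  have hπ0 : (π : laurentBaseChange L F₀) ≠ 0 := by
    simpa [ne_eq, ZeroMemClass.coe_eq_zero] using hπ.ne_zero
  obtain ⟨D, hD, -⟩ :=
    HasPrincipalDivisors.exists_divisor (K := L) (π : laurentBaseChange L F₀) hπ0
  obtain ⟨E₀, hE₀fin, hE₀⟩ := exists_finiteDimensional_smul_eq F₀ (π : laurentBaseChange L F₀)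
  have hsep : ∀ w : Place L (laurentBaseChange L F₀),
      ∃ E : IntermediateField ℚ L, FiniteDimensional ℚ E ∧
        (w ≠ v → ∃ x : laurentBaseChange L F₀, x ∈ v.toValuationSubring ∧
          x ∉ w.toValuationSubring ∧
          ∀ σ : L ≃ₐ[ℚ] L, (∀ a ∈ E, σ a = a) → arithmeticGalois F₀ σ • x = x) := by
    intro w
    by_cases hw : w = v
    · exact ⟨⊥, inferInstance, fun h => absurd hw h⟩
    · obtain ⟨x, hxv, hxw⟩ := exists_mem_notMem_of_ne (Ne.symm hw)
      obtain ⟨E, hE, hEx⟩ := exists_finiteDimensional_smul_eq F₀ x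
      exact ⟨E, hE, fun _ => ⟨x, hxv, hxw, hEx⟩⟩
  choose Ew hEwfin hEw using hsep
  refine ⟨E₀ ⊔ ⨆ w ∈ D.support, Ew w, inferInstance, fun σ hσ => ?_⟩
  have hgπ : arithmeticGalois F₀ σ • (π : laurentBaseChange L F₀) = π :=
    hE₀ σ fun a ha => hσ a ((le_sup_left : E₀ ≤ E₀ ⊔ ⨆ w ∈ D.support, Ew w) ha)
  have hord : (arithmeticGalois F₀ σ • v).ord (π : laurentBaseChange L F₀) = 1 := by
    have := SemilinearAut.ord_smul (arithmeticGalois F₀ σ) v (π : laurentBaseChange L F₀)
    rwa [hgπ, v.ord_coe_irreducible hπ] at this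
  have hmem : arithmeticGalois F₀ σ • v ∈ D.support := by
    rw [Finsupp.mem_support_iff, hD, hord]
    exact one_ne_zero
  by_contra hne
  obtain ⟨x, hxv, hxw, hx⟩ := hEw (arithmeticGalois F₀ σ • v) hne
  have hle : Ew (arithmeticGalois F₀ σ • v) ≤ E₀ ⊔ ⨆ w ∈ D.support, Ew w :=
    le_sup_of_le_right (le_iSup₂_of_le (arithmeticGalois F₀ σ • v) hmem le_rfl)
  have hgx : arithmeticGalois F₀ σ • x = x := hx σ fun a ha => hσ a (hle ha)
  apply hxw
  have := ValuationSubring.smul_mem_pointwise_smul (arithmeticGalois F₀ σ) x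
    v.toValuationSubring hxv
  rwa [hgx] at this

/-- **Divisors have open stabiliser.** -/
theorem exists_finiteDimensional_smul_divisor_eq (D : Divisor L (laurentBaseChange L F₀)) :
    ∃ E : IntermediateField ℚ L, FiniteDimensional ℚ E ∧
      ∀ σ : L ≃ₐ[ℚ] L, (∀ a ∈ E, σ a = a) → arithmeticGalois F₀ σ • D = D := by
  classical
  choose Ev hEvfin hEv using exists_finiteDimensional_smul_place_eq (L := L) F₀
  refine ⟨⨆ v ∈ D.support, Ev v, inferInstance, fun σ hσ => ?_⟩
  rw [SemilinearAut.divisor_smul_def]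
  have : D.mapDomain (arithmeticGalois F₀ σ • ·) = D.mapDomain id :=
    Finsupp.mapDomain_congr fun v hv =>
      hEv v σ fun a ha => hσ a ((le_iSup₂_of_le v hv le_rfl : Ev v ≤ ⨆ v ∈ D.support, Ev v) ha)
  rw [this, Finsupp.mapDomain_id]

/-- **Divisor classes have open stabiliser.** -/
theorem exists_finiteDimensional_smul_pic0_eq (x : Pic0 L (laurentBaseChange L F₀)) :
    ∃ E : IntermediateField ℚ L, FiniteDimensional ℚ E ∧
      ∀ σ : L ≃ₐ[ℚ] L, (∀ a ∈ E, σ a = a) → σ • x = x := by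
  obtain ⟨D, rfl⟩ := Pic0.mk_surjective x
  obtain ⟨E, hE, h⟩ := exists_finiteDimensional_smul_divisor_eq F₀ (D : Divisor L _)
  refine ⟨E, hE, fun σ hσ => ?_⟩
  rw [galois_smul_pic0_def, SemilinearAut.pic0_smul_mk]
  exact congrArg Pic0.mk (Subtype.ext (h σ hσ))

end Stabilizer

section JZeroPart

variable (N : ℕ) [HasPrincipalDivisors (AlgebraicClosure ℚ) (modularFunctionFieldBar N)]

/-- **Every point of `J₀(N)` is defined over a finite extension of `ℚ`**: it is fixed by
`Gal(ℚ̄/E)` for some finite `E/ℚ`. -/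
theorem jzero_exists_finiteDimensional_smul_eq (x : JZero N) :
    ∃ E : IntermediateField ℚ (AlgebraicClosure ℚ), FiniteDimensional ℚ E ∧
      ∀ σ : AlgebraicClosure ℚ ≃ₐ[ℚ] AlgebraicClosure ℚ, (∀ a ∈ E, σ a = a) → σ • x = x :=
  haveI : Algebra.IsAlgebraic ℚ (AlgebraicClosure ℚ) := AlgebraicClosure.isAlgebraic ℚ
  exists_finiteDimensional_smul_pic0_eq (modularFunctionFieldFull N) x

/-- Finite-set version. -/
theorem jzero_exists_finiteDimensional_forall_smul_eq (s : Finset (JZero N)) :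
    ∃ E : IntermediateField ℚ (AlgebraicClosure ℚ), FiniteDimensional ℚ E ∧
      ∀ σ : AlgebraicClosure ℚ ≃ₐ[ℚ] AlgebraicClosure ℚ, (∀ a ∈ E, σ a = a) →
        ∀ x ∈ s, σ • x = x := by
  classical
  choose Ex hExfin hEx using jzero_exists_finiteDimensional_smul_eq N
  exact ⟨⨆ x ∈ s, Ex x, inferInstance, fun σ hσ x hx =>
    hEx x σ fun a ha => hσ a ((le_iSup₂_of_le x hx le_rfl : Ex x ≤ ⨆ x ∈ s, Ex x) ha)⟩

end JZeroPart

end Fermat.Agent.S29.H451
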