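import Fermat.Agent.S29.H451.FiniteLevel
import Fermat.Agent.Lib.RR.H864.FF1Modular

/-!
# S29 / piece SMOOTH (= M3), helper451: the Galois action on `JZero N` is smooth

Unconditional: `HasPrincipalDivisors` for the modular function field is the landed
`Lib.RR.H864.hasPrincipalDivisors_modularFunctionFieldBar`.
-/

set_option autoImplicit false

noncomputable section

namespace Fermat.Agent.S29.H451

open AlgebraicCurve ModularCurve

/-- PIECE `SMOOTH` / `M3`: every point of `JZero N` is fixed by an open subgroup of `G_ℚ`. -/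
theorem smooth_JZero (N : ℕ) [NeZero N] (x : JZero N) :
    ∃ L : IntermediateField ℚ (AlgebraicClosure ℚ), FiniteDimensional ℚ L ∧
      ∀ σ : AlgebraicClosure ℚ ≃ₐ[ℚ] AlgebraicClosure ℚ, (∀ y ∈ L, σ y = y) → σ • x = x :=
  haveI := Fermat.Agent.Lib.RR.H864.hasPrincipalDivisors_modularFunctionFieldBar N
  jzero_exists_finiteDimensional_smul_eq N x

/-- Finite-set version of `smooth_JZero`. -/
theorem smooth_JZero_finset (N : ℕ) [NeZero N] (s : Finset (JZero N)) :
    ∃ L : IntermediateField ℚ (AlgebraicClosure ℚ), FiniteDimensional ℚ L ∧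
      ∀ σ : AlgebraicClosure ℚ ≃ₐ[ℚ] AlgebraicClosure ℚ, (∀ y ∈ L, σ y = y) →
        ∀ x ∈ s, σ • x = x :=
  haveI := Fermat.Agent.Lib.RR.H864.hasPrincipalDivisors_modularFunctionFieldBar N
  jzero_exists_finiteDimensional_forall_smul_eq N s

/-- Places of the modular function field have open stabiliser. -/
theorem smooth_place (N : ℕ) [NeZero N]
    (v : Place (AlgebraicClosure ℚ) (modularFunctionFieldBar N)) :
    ∃ L : IntermediateField ℚ (AlgebraicClosure ℚ), FiniteDimensional ℚ L ∧
      ∀ σ : AlgebraicClosure ℚ ≃ₐ[ℚ] AlgebraicClosure ℚ, (∀ y ∈ L, σ y = y) →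
        arithmeticGalois (modularFunctionFieldFull N) σ • v = v :=
  haveI := Fermat.Agent.Lib.RR.H864.hasPrincipalDivisors_modularFunctionFieldBar N
  haveI : Algebra.IsAlgebraic ℚ (AlgebraicClosure ℚ) := AlgebraicClosure.isAlgebraic ℚ
  exists_finiteDimensional_smul_place_eq (modularFunctionFieldFull N) v

end Fermat.Agent.S29.H451
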